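import Mathlib.NumberTheory.FLT.Basic
import Mathlib.NumberTheory.FLT.Three
import Mathlib.NumberTheory.FLT.Four
import Fermat.Prelude.Def_FLTPrelim_FreyPackage

/-!
# Reduction of the root statement S01 to the two Frey-package statements S02 and S03

`Fermat.Agent.S01Reduction.flt_of_frey` : if every solution for a prime exponent `p ≥ 5`
yields a Frey package (S02) and no Frey package exists (S03), then Fermat's Last Theorem
holds in the elementary form of S01.  The exponents 3 and 4 come from Mathlib.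
-/

set_option autoImplicit false

namespace Fermat.Agent.S01Reduction

/-- Fermat's Last Theorem from the prime exponents `p ≥ 5`. -/
theorem flt_of_primes_ge_five
    (H : ∀ p : ℕ, p.Prime → 5 ≤ p → FermatLastTheoremFor p) : FermatLastTheorem := by
  refine FermatLastTheorem.of_odd_primes fun p pp hodd => ?_
  by_cases hp5 : 5 ≤ p
  · exact H p pp hp5
  · have h2 : 2 ≤ p := pp.two_le
    have hp : p = 3 := by
      have hlt : p < 5 := not_le.mp hp5
      obtain ⟨k, hk⟩ := hodd
      interval_cases p
      · omega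
      · rfl
      · omega
    subst hp
    exact fermatLastTheoremThree

/-- Fermat's Last Theorem for a prime exponent `p ≥ 5` from S02 and S03. -/
theorem fltFor_of_frey
    (hFrey : ∀ (a b c : ℤ), a ≠ 0 → b ≠ 0 → c ≠ 0 → ∀ p : ℕ, p.Prime → 5 ≤ p →
      a ^ p + b ^ p = c ^ p → Nonempty FreyPackage)
    (hNo : FreyPackage → False) (p : ℕ) (pp : p.Prime) (hp5 : 5 ≤ p) :
    FermatLastTheoremFor p := by
  rw [fermatLastTheoremFor_iff_int]
  intro a b c ha hb hc H
  obtain ⟨P⟩ := hFrey a b c ha hb hc p pp hp5 H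
  exact hNo P

/-- The elementary form of Fermat's Last Theorem from S02 and S03. -/
theorem flt_of_frey
    (hFrey : ∀ (a b c : ℤ), a ≠ 0 → b ≠ 0 → c ≠ 0 → ∀ p : ℕ, p.Prime → 5 ≤ p →
      a ^ p + b ^ p = c ^ p → Nonempty FreyPackage)
    (hNo : FreyPackage → False)
    (n : ℕ) (hn : 3 ≤ n) (a b c : ℕ) (ha : 0 < a) (hb : 0 < b) (hc : 0 < c) :
    a ^ n + b ^ n ≠ c ^ n :=
  flt_of_primes_ge_five (fun p pp hp5 => fltFor_of_frey hFrey hNo p pp hp5) n hn a b c
    ha.ne' hb.ne' hc.ne'

end Fermat.Agent.S01Reduction
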